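/-
Programme T1B (row 38 via S44), cell TORIC50, brick NORM-MODEL part A (helper46): the ABSTRACT
"miracle flatness in dimension 2" (helper50's report 931), `Mathlib` only.

* `free_of_quot` : `(R, 𝔪)` local, `M` finitely presented, `π ∈ 𝔪` `M`-regular, `R/π` a principal ideal domain
  and `M/πM` torsion-free over `R/π`  ⟹  `M` is free  (Mathlib's `Module.free_quotSMulTop_iff_free` + structure of
  finite torsion-free modules over a PID);
* `isTorsionFree_of_isSMulRegular_generator` : over a local principal ideal domain with maximal ideal `(u)`, a
  module on which `u` is regular is torsion-free  ("`u` is `M/πM`-regular" is the checkable form);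
* **`projective_of_fibres`** : `A` a noetherian domain, `π ≠ 0`, `M` a finite torsion-free `A`-module; if for every
  maximal ideal `P`
  - `π ∉ P` ⟹ `A_P` is a principal ideal ring (generic fibre Dedekind),
  - `π ∈ P` ⟹ `A_P/π` is a principal ideal domain and `M_P/πM_P` is torsion-free over it (smooth special fibre
    of the base, no embedded/vertical torsion in `M/π`),
  then `M` is a projective `A`-module.
Consumer: `B_j` is a finite projective `α(B'_j)`- and `β(B'_j)`-module (Čech norm for `β` on formal points).
-/
import Mathlib

set_option autoImplicit false

open IsLocalRing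

namespace Fermat.Agent.T1B.NormModel46

section Local

variable {R : Type*} [CommRing R] [IsLocalRing R] {M : Type*} [AddCommGroup M] [Module R M]

/-- **Local criterion.** -/
theorem free_of_quot [Module.FinitePresentation R M] {π : R} (hπ : π ∈ maximalIdeal R)
    (hreg : IsSMulRegular M π) [IsDomain (R ⧸ Ideal.span {π})]
    [IsPrincipalIdealRing (R ⧸ Ideal.span {π})]
    [Module.IsTorsionFree (R ⧸ Ideal.span {π}) (QuotSMulTop π M)] : Module.Free R M := by
  have hjac : π ∈ (⊥ : Ideal R).jacobson := by
    rw [IsLocalRing.jacobson_eq_maximalIdeal ⊥ bot_ne_top]
    exact hπ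
  rw [← Module.free_quotSMulTop_iff_free R M hjac hreg]
  have : Module.Finite (R ⧸ Ideal.span {π}) (QuotSMulTop π M) :=
    Module.Finite.of_restrictScalars_finite R (R ⧸ Ideal.span {π}) (QuotSMulTop π M)
  infer_instance

end Local

section Generator

variable {R : Type*} [CommRing R] [Nontrivial R] {M : Type*} [AddCommGroup M]
  [Module R M]

/-- Over a local domain whose maximal ideal is `(u)` and in which every nonzero element is a unit times a
power of `u` (e.g. a DVR), a module on which `u` is regular is torsion-free. -/
theorem isTorsionFree_of_isSMulRegular_generator {u : R}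
    (hu : ∀ r : R, r ≠ 0 → ∃ (n : ℕ) (w : Rˣ), r = w * u ^ n) (hreg : IsSMulRegular M u) :
    Module.IsTorsionFree R M := by
  refine Module.IsTorsionFree.of_smul_eq_zero fun r m hrm => ?_
  by_cases hr : r = 0
  · exact Or.inl hr
  · right
    obtain ⟨n, w, rfl⟩ := hu r hr
    have h1 : (u ^ n) • m = 0 := by
      have : (w : R) • ((u ^ n) • m) = 0 := by rw [← mul_smul]; exact hrm
      have h2 := congrArg (fun x => ((w⁻¹ : Rˣ) : R) • x) this
      simpa [← mul_smul] using h2
    exact (hreg.pow n).right_eq_zero_of_smul h1

end Generator

section Global

variable {A : Type*} [CommRing A] [IsDomain A] [IsNoetherianRing A]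
  {M : Type*} [AddCommGroup M] [Module A M] [Module.Finite A M] [Module.IsTorsionFree A M]

/-- **Miracle flatness in dimension 2, abstract form.** -/
theorem projective_of_fibres {π : A} (hπ0 : π ≠ 0)
    (hgen : ∀ (P : Ideal A) [P.IsMaximal], π ∉ P →
      IsPrincipalIdealRing (Localization.AtPrime P))
    (hspec : ∀ (P : Ideal A) [P.IsMaximal], π ∈ P →
      IsDomain (Localization.AtPrime P ⧸ Ideal.span {algebraMap A (Localization.AtPrime P) π}) ∧
      IsPrincipalIdealRing
        (Localization.AtPrime P ⧸ Ideal.span {algebraMap A (Localization.AtPrime P) π}) ∧
      Module.IsTorsionFree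
        (Localization.AtPrime P ⧸ Ideal.span {algebraMap A (Localization.AtPrime P) π})
        (QuotSMulTop (algebraMap A (Localization.AtPrime P) π)
          (LocalizedModule P.primeCompl M))) :
    Module.Projective A M := by
  have : Module.FinitePresentation A M := Module.finitePresentation_of_finite A M
  refine Module.projective_of_localization_maximal fun P hP => ?_
  have : Module.Finite (Localization.AtPrime P) (LocalizedModule P.primeCompl M) :=
    Module.Finite.of_isLocalizedModule P.primeCompl (LocalizedModule.mkLinearMap P.primeCompl M)
  have htf : Module.IsTorsionFree (Localization.AtPrime P) (LocalizedModule P.primeCompl M) :=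
    inferInstance
  by_cases hπP : π ∈ P
  · -- special fibre
    obtain ⟨hdom, hpid, htfq⟩ := hspec P hπP
    have hπm : algebraMap A (Localization.AtPrime P) π ∈
        maximalIdeal (Localization.AtPrime P) := by
      rw [← Localization.AtPrime.map_eq_maximalIdeal]
      exact Ideal.mem_map_of_mem _ hπP
    have hπne : algebraMap A (Localization.AtPrime P) π ≠ 0 := by
      intro h0
      apply hπ0
      exact (IsLocalization.injective (Localization.AtPrime P) P.primeCompl_le_nonZeroDivisors)
        (by rw [h0, map_zero])
    have hreg : IsSMulRegular (LocalizedModule P.primeCompl M)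
        (algebraMap A (Localization.AtPrime P) π) :=
      (IsRegular.of_ne_zero hπne).isSMulRegular
    have : Module.FinitePresentation (Localization.AtPrime P) (LocalizedModule P.primeCompl M) :=
      Module.finitePresentation_of_finite _ _
    have := free_of_quot (R := Localization.AtPrime P) (M := LocalizedModule P.primeCompl M)
      hπm hreg
    infer_instance
  · -- generic fibre
    have hpir := hgen P hπP
    have : Module.Free (Localization.AtPrime P) (LocalizedModule P.primeCompl M) :=
      Module.free_of_finite_type_torsion_free'
    infer_instance

end Global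

end Fermat.Agent.T1B.NormModel46
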